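/-
S31lib / block LAT (helper5).  **Characters of a reduced finite free ring.**
`B` a reduced commutative ring, finite free over `ℤ` with basis `b_k`; `Ω` a separably closed field of
characteristic `0`.  Then there are `rank B` ring homs `χ_i : B → Ω` with `det (χ_i (b_k)) ≠ 0`.
(`ℚ ⊗ B` is a finite reduced `ℚ`-algebra, hence étale; `Ω ⊗ ℚ ⊗ B ≃ Ω^d`.)
-/
import Mathlib

set_option autoImplicit false
set_option linter.style.haveILetI false

noncomputable section

namespace Fermat.Agent.S31lib.LAT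

open TensorProduct

/-- a finite reduced algebra over a field of characteristic zero is formally étale. -/
theorem formallyEtale_of_isReduced (K : Type*) [Field K] [CharZero K] (A : Type*) [CommRing A]
    [Algebra K A] [Module.Finite K A] [IsReduced A] : Algebra.FormallyEtale K A := by
  haveI : IsArtinianRing A := IsArtinianRing.of_finite K A
  let e := (IsArtinianRing.equivPi A).restrictScalars K
  letI (I : MaximalSpectrum A) : Field (A ⧸ I.asIdeal) := Ideal.Quotient.field I.asIdeal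
  have : Algebra.FormallyEtale K (Π I : MaximalSpectrum A, A ⧸ I.asIdeal) := by
    rw [Algebra.FormallyEtale.pi_iff]
    intro I
    exact Algebra.FormallyEtale.of_isSeparable K _
  exact Algebra.FormallyEtale.of_equiv e.symm

attribute [local instance] Algebra.TensorProduct.rightAlgebra in
theorem isReduced_rat_tensor (B : Type*) [CommRing B] [IsReduced B] : IsReduced (ℚ ⊗[ℤ] B) := by
  haveI : IsLocalization (Algebra.algebraMapSubmonoid B (nonZeroDivisors ℤ)) (ℚ ⊗[ℤ] B) :=
    IsLocalization.tensorRight (R := ℤ) (S := B) ℚ (nonZeroDivisors ℤ)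
  exact isReduced_localizationPreserves (Algebra.algebraMapSubmonoid B (nonZeroDivisors ℤ))
    (ℚ ⊗[ℤ] B) inferInstance

/-- a finite étale algebra over a separably closed field has a full set of characters:
for a basis `b` indexed by `κ` there are `κ`-many characters with invertible value matrix. -/
theorem exists_characters_of_etale (Ω : Type*) [Field Ω] [IsSepClosed Ω] (C : Type*) [CommRing C]
    [Algebra Ω C] [Module.Finite Ω C] [Algebra.FormallyEtale Ω C]
    {κ : Type*} [Fintype κ] [DecidableEq κ] (b : Module.Basis κ Ω C) :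
    ∃ χ : κ → C →ₐ[Ω] Ω, (Matrix.of fun i k => χ i (b k)).det ≠ 0 := by
  classical
  let e : C ≃ₐ[Ω] (PrimeSpectrum C → Ω) := Algebra.FormallyEtale.equivPiOfIsSepClosed Ω C
  haveI : IsArtinianRing C := IsArtinianRing.of_finite Ω C
  haveI : Finite (PrimeSpectrum C) := inferInstance
  let b₃ : Module.Basis κ Ω (PrimeSpectrum C → Ω) := b.map e.toLinearEquiv
  let σ : κ ≃ PrimeSpectrum C := b₃.indexEquiv (Pi.basisFun Ω _)
  let χ : κ → C →ₐ[Ω] Ω := fun k => (Pi.evalAlgHom Ω _ (σ k)).comp e.toAlgHom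
  refine ⟨χ, ?_⟩
  have hM : (Matrix.of fun i k => χ i (b k)) =
      ((Pi.basisFun Ω (PrimeSpectrum C)).reindex σ.symm).toMatrix b₃ := by
    ext i k
    simp [Module.Basis.toMatrix_apply, χ, b₃]
  rw [hM]
  haveI := Module.Basis.invertibleToMatrix
    ((Pi.basisFun Ω (PrimeSpectrum C)).reindex σ.symm) b₃
  exact (Matrix.isUnit_det_of_invertible _).ne_zero

theorem exists_characters (B : Type) [CommRing B] [Module.Finite ℤ B] [Module.Free ℤ B]
    [IsReduced B] (Ω : Type) [Field Ω] [CharZero Ω] [IsSepClosed Ω] :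
    ∃ (κ : Type) (_ : Fintype κ) (_ : DecidableEq κ) (b : Module.Basis κ ℤ B)
      (χ : κ → B →+* Ω), (Matrix.of fun i k => χ i (b k)).det ≠ 0 := by
  classical
  let κ := Module.Free.ChooseBasisIndex ℤ B
  let b : Module.Basis κ ℤ B := Module.Free.chooseBasis ℤ B
  haveI : IsReduced (ℚ ⊗[ℤ] B) := isReduced_rat_tensor B
  haveI : Algebra.FormallyEtale ℚ (ℚ ⊗[ℤ] B) := formallyEtale_of_isReduced ℚ _
  let b₁ : Module.Basis κ ℚ (ℚ ⊗[ℤ] B) := Algebra.TensorProduct.basis ℚ b
  let b₂ : Module.Basis κ Ω (Ω ⊗[ℚ] (ℚ ⊗[ℤ] B)) := Algebra.TensorProduct.basis Ω b₁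
  obtain ⟨χ, hχ⟩ := exists_characters_of_etale Ω (Ω ⊗[ℚ] (ℚ ⊗[ℤ] B)) b₂
  let ι₀ : B →+* (Ω ⊗[ℚ] (ℚ ⊗[ℤ] B)) :=
    (Algebra.TensorProduct.includeRight (R := ℚ) (A := Ω) (B := ℚ ⊗[ℤ] B)).toRingHom.comp
      (Algebra.TensorProduct.includeRight (R := ℤ) (A := ℚ) (B := B)).toRingHom
  refine ⟨κ, inferInstance, inferInstance, b, fun k => (χ k).toRingHom.comp ι₀, ?_⟩
  convert hχ using 3
  ext i k
  simp [b₂, b₁, ι₀, Algebra.TensorProduct.basis_apply]

end Fermat.Agent.S31lib.LAT
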