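/-
S31lib / LAT (helper4): the lattice bound from a nonvanishing determinant (Cramer's rule).
`B` a ring with a finite `ℤ`-basis `b`, `χ_i : B → O` ring homomorphisms into a DVR of
characteristic `0` with `p ∈ 𝔪`, indexed by the same type as the basis, with
`det (χ_i (b_k)) ≠ 0`.  Then there is `c` such that `(∀ i, p^m ∣ χ_i r) → r ∈ p^(m-c) B`.
-/
import Mathlib

set_option autoImplicit false
set_option linter.unusedSectionVars false

noncomputable section

namespace Fermat.Agent.S31lib.LAT

open IsLocalRing Matrix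

section DVR

variable {O : Type*} [CommRing O] [IsDomain O] [IsDiscreteValuationRing O]

/-- a nonzero element of a DVR divides a power of any element of the maximal ideal. -/
theorem exists_dvd_pow {D x : O} (hD : D ≠ 0) (hx : x ∈ maximalIdeal O) : ∃ a : ℕ, D ∣ x ^ a := by
  obtain ⟨ϖ, hϖ⟩ := IsDiscreteValuationRing.exists_irreducible O
  obtain ⟨a, ha⟩ := IsDiscreteValuationRing.associated_pow_irreducible hD hϖ
  refine ⟨a, ?_⟩
  have h1 : ϖ ∣ x := by
    rw [hϖ.maximalIdeal_eq, Ideal.mem_span_singleton] at hx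
    exact hx
  exact ha.dvd.trans (pow_dvd_pow_of_dvd h1 a)

/-- cancelling a nonzero factor in a divisibility by a power of `x`. -/
theorem mem_span_pow_of_mul_mem {D x : O} (hD : D ≠ 0) {a : ℕ} (ha : D ∣ x ^ a) {y : O} {m : ℕ}
    (h : D * y ∈ Ideal.span {x ^ m}) : y ∈ Ideal.span {x ^ (m - a)} := by
  rcases le_or_gt m a with hma | hma
  · rw [Nat.sub_eq_zero_of_le hma, pow_zero, Ideal.span_singleton_one]
    exact Submodule.mem_top
  · obtain ⟨w, hw⟩ := ha
    obtain ⟨z, hz⟩ := Ideal.mem_span_singleton'.mp h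
    rw [Ideal.mem_span_singleton']
    refine ⟨z * w, ?_⟩
    have h1 : D * (z * w * x ^ (m - a)) = D * y := by
      have hpow : x ^ m = x ^ (m - a) * x ^ a := by
        rw [← pow_add, Nat.sub_add_cancel hma.le]
      calc D * (z * w * x ^ (m - a)) = z * (x ^ (m - a) * (D * w)) := by ring
        _ = z * x ^ m := by rw [← hw, ← hpow]
        _ = D * y := hz
    exact mul_left_cancel₀ hD h1

variable [CharZero O] {p : ℕ}

/-- an integer whose image lies in the maximal ideal is divisible by `p`. -/
theorem int_dvd_of_cast_mem (hp : p.Prime) (hpO : (p : O) ∈ maximalIdeal O) {n : ℤ}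
    (hn : (n : O) ∈ maximalIdeal O) : (p : ℤ) ∣ n := by
  by_contra hnd
  have hcop : IsCoprime (p : ℤ) n :=
    (Prime.coprime_iff_not_dvd (Nat.prime_iff_prime_int.mp hp)).mpr hnd
  obtain ⟨u, v, huv⟩ := hcop
  have h1 : ((u * p + v * n : ℤ) : O) = 1 := by rw [huv, Int.cast_one]
  have h2 : ((u * p + v * n : ℤ) : O) ∈ maximalIdeal O := by
    push_cast
    exact Ideal.add_mem _ (Ideal.mul_mem_left _ _ hpO) (Ideal.mul_mem_left _ _ hn)
  rw [h1] at h2
  exact (Ideal.ne_top_iff_one _).mp (maximalIdeal.isMaximal O).ne_top h2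

/-- an integer whose image is divisible by `p ^ j` in `O` is divisible by `p ^ j`. -/
theorem int_pow_dvd_of_cast_mem (hp : p.Prime) (hpO : (p : O) ∈ maximalIdeal O) {n : ℤ} {j : ℕ}
    (hn : (n : O) ∈ Ideal.span {(p : O) ^ j}) : ((p : ℤ) ^ j) ∣ n := by
  have hp0 : (p : O) ≠ 0 := Nat.cast_ne_zero.mpr hp.ne_zero
  induction j generalizing n with
  | zero => rw [pow_zero]; exact one_dvd _
  | succ j ih =>
    have h1 : (n : O) ∈ Ideal.span {(p : O) ^ j} := by
      refine Ideal.span_singleton_le_span_singleton.mpr ?_ hn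
      exact pow_dvd_pow _ (Nat.le_succ j)
    obtain ⟨n', rfl⟩ := ih h1
    obtain ⟨z, hz⟩ := Ideal.mem_span_singleton'.mp hn
    have h2 : (p : O) ^ j * (n' : O) = (p : O) ^ j * (z * p) := by
      have : (((p : ℤ) ^ j * n' : ℤ) : O) = (p : O) ^ j * (n' : O) := by push_cast; ring
      rw [← this, ← hz, pow_succ]
      ring
    have h3 : (n' : O) = z * p := mul_left_cancel₀ (pow_ne_zero j hp0) h2
    have h4 : (n' : O) ∈ maximalIdeal O := by
      rw [h3]; exact Ideal.mul_mem_left _ _ hpO
    obtain ⟨n'', rfl⟩ := int_dvd_of_cast_mem hp hpO h4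
    exact ⟨n'', by rw [pow_succ]; ring⟩

end DVR

/-- **Lattice bound from Cramer's rule.** -/
theorem lattice_of_det_ne_zero {B : Type*} [CommRing B] {κ : Type*} [Fintype κ] [DecidableEq κ]
    (b : Module.Basis κ ℤ B)
    {O : Type*} [CommRing O] [IsDomain O] [IsDiscreteValuationRing O] [CharZero O] {p : ℕ}
    (hp : p.Prime) (hpO : (p : O) ∈ maximalIdeal O) (χ : κ → B →+* O)
    (hdet : (Matrix.of fun i k => χ i (b k)).det ≠ 0) :
    ∃ c : ℕ, ∀ (r : B) (m : ℕ), (∀ i, χ i r ∈ Ideal.span {(p : O) ^ m}) →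
      r ∈ Ideal.span {(p : B) ^ (m - c)} := by
  classical
  set Mx : Matrix κ κ O := Matrix.of fun i k => χ i (b k) with hMx
  obtain ⟨c, hc⟩ := exists_dvd_pow hdet hpO
  refine ⟨c, fun r m hr => ?_⟩
  -- coordinates of `r`
  set n : κ → ℤ := fun k => b.repr r k with hn
  have hrsum : r = ∑ k, n k • b k := (b.sum_repr r).symm
  have hχr : ∀ i, χ i r = ∑ k, Mx i k * (n k : O) := by
    intro i
    conv_lhs => rw [hrsum]
    rw [map_sum]
    refine Finset.sum_congr rfl fun k _ => ?_
    rw [map_zsmul, zsmul_eq_mul, hMx, Matrix.of_apply, mul_comm]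
  -- Cramer
  have hcramer : ∀ k, Mx.det * (n k : O) = ∑ i, Mx.adjugate k i * χ i r := by
    intro k
    have h1 : (Mx.adjugate * Mx) *ᵥ (fun k => (n k : O)) = Mx.det • (fun k => (n k : O)) := by
      rw [Matrix.adjugate_mul, Matrix.smul_mulVec, Matrix.one_mulVec]
    have h2 := congrFun h1 k
    rw [← Matrix.mulVec_mulVec, Pi.smul_apply, smul_eq_mul] at h2
    rw [← h2, Matrix.mulVec, dotProduct]
    refine Finset.sum_congr rfl fun i _ => ?_
    rw [hχr i]
    rfl
  have hnk : ∀ k, ((p : ℤ) ^ (m - c)) ∣ n k := by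
    intro k
    refine int_pow_dvd_of_cast_mem hp hpO ?_
    refine mem_span_pow_of_mul_mem hdet hc ?_
    rw [hcramer k]
    exact Ideal.sum_mem _ fun i _ => Ideal.mul_mem_left _ _ (hr i)
  choose n' hn' using hnk
  rw [Ideal.mem_span_singleton']
  refine ⟨∑ k, n' k • b k, ?_⟩
  rw [hrsum, Finset.sum_mul]
  refine Finset.sum_congr rfl fun k _ => ?_
  rw [hn' k]
  simp only [zsmul_eq_mul]
  push_cast
  ring

/-- pairwise distinct characters on a ring with a `ℤ`-basis have a nonvanishing determinant
(Dedekind's independence of characters). -/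
theorem det_ne_zero_of_injective {B : Type*} [CommRing B] {κ : Type*} [Fintype κ]
    [DecidableEq κ] (b : Module.Basis κ ℤ B) {O : Type*} [CommRing O] [IsDomain O]
    (χ : κ → B →+* O) (hχ : Function.Injective χ) :
    (Matrix.of fun i k => χ i (b k)).det ≠ 0 := by
  classical
  intro hdet
  obtain ⟨v, hv0, hv⟩ := Matrix.exists_vecMul_eq_zero_iff.mpr hdet
  -- the combination vanishes on the basis, hence everywhere
  have hb : ∀ k, ∑ i, v i * χ i (b k) = 0 := by
    intro k
    have := congrFun hv k
    simpa [Matrix.vecMul, dotProduct, Matrix.of_apply] using this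
  have hall : ∀ r : B, ∑ i, v i * χ i r = 0 := by
    intro r
    have hr : r = ∑ k, (b.repr r k) • b k := (b.sum_repr r).symm
    have h1 : ∀ i, χ i r = ∑ k, (b.repr r k : O) * χ i (b k) := by
      intro i
      conv_lhs => rw [hr]
      rw [map_sum]
      refine Finset.sum_congr rfl fun k _ => ?_
      rw [map_zsmul, zsmul_eq_mul]
    calc ∑ i, v i * χ i r = ∑ i, ∑ k, v i * ((b.repr r k : O) * χ i (b k)) := by
          refine Finset.sum_congr rfl fun i _ => ?_
          rw [h1 i, Finset.mul_sum]
      _ = ∑ k, ∑ i, v i * ((b.repr r k : O) * χ i (b k)) := Finset.sum_comm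
      _ = ∑ k, (b.repr r k : O) * ∑ i, v i * χ i (b k) := by
          refine Finset.sum_congr rfl fun k _ => ?_
          rw [Finset.mul_sum]
          exact Finset.sum_congr rfl fun i _ => by ring
      _ = 0 := by
          refine Finset.sum_eq_zero fun k _ => ?_
          rw [hb k, mul_zero]
  -- contradiction with the independence of characters
  have hli : LinearIndependent O (fun i : κ => ((χ i : B →* O) : B → O)) := by
    have h0 := linearIndependent_monoidHom B O
    have hinj : Function.Injective (fun i : κ => (χ i : B →* O)) := by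
      intro i j hij
      apply hχ
      ext r
      exact congrFun (congrArg (fun f : B →* O => (f : B → O)) hij) r
    exact h0.comp _ hinj
  have hzero : ∑ i, v i • (fun r => ((χ i : B →* O) : B → O) r) = 0 := by
    ext r
    rw [Finset.sum_apply]
    simpa [Pi.smul_apply, smul_eq_mul] using hall r
  have := Fintype.linearIndependent_iff.mp hli v hzero
  exact hv0 (funext this)

end Fermat.Agent.S31lib.LAT
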