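/-
S31lib / block LAT (helper5).  **The lattice family.**
`B` a reduced commutative ring, finite free over `ℤ` (e.g. the Hecke algebra `𝕋^S`), `p` a prime.
There are finitely many ring homs `θ_i : B → O` into the ring of integers `O` of a finite extension
of `ℚ_p` (a complete DVR with finite residue field, characteristic `0`, `p ∈ 𝔪_O`) and `c` such that
`θ_i r ∈ p^m O` for all `i` implies `r ∈ p^(m-c) B`.
-/
import Mathlib
import Fermat.Agent.S29lib.Dvr.IntegralClosure
import Fermat.Agent.S29lib.S30.Extend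
import Fermat.Agent.S31lib.LAT.Characters
import Fermat.Agent.S31lib.LAT.Cramer -- (helper4's file)

set_option autoImplicit false
set_option linter.style.haveILetI false

noncomputable section

namespace Fermat.Agent.S31lib.LAT

open IsLocalRing Fermat.Agent.S29lib.Dvr Fermat.Agent.S29lib.S30

/-- **LAT, abstract form.** -/
theorem exists_lattice_family (B : Type) [CommRing B] [Module.Finite ℤ B] [Module.Free ℤ B]
    [IsReduced B] (p : ℕ) [hp : Fact p.Prime] :
    ∃ (ι : Type) (_ : Finite ι) (O : Type) (_ : CommRing O) (_ : IsDomain O)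
      (_ : IsDiscreteValuationRing O) (_ : IsAdicComplete (maximalIdeal O) O)
      (_ : Finite (ResidueField O)) (_ : CharZero O) (χ : ι → B →+* O),
      (p : O) ∈ maximalIdeal O ∧ ∃ c : ℕ, ∀ (r : B) (m : ℕ),
        (∀ i, χ i r ∈ Ideal.span {(p : O) ^ m}) → r ∈ Ideal.span {(p : B) ^ (m - c)} := by
  classical
  let Ω := AlgebraicClosure ℚ_[p]
  haveI : CharZero Ω := charZero_of_injective_algebraMap (algebraMap ℚ_[p] Ω).injective
  obtain ⟨κ, hκ, hdec, b, χ, hdet⟩ := exists_characters B Ω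
  choose K hKfd hK using fun k => exists_finiteDimensional_range_le ℚ_[p] Ω (χ k)
  haveI : ∀ k, FiniteDimensional ℚ_[p] (K k) := hKfd
  let K₁ : IntermediateField ℚ_[p] Ω := ⨆ k, K k
  haveI : FiniteDimensional ℚ_[p] K₁ := IntermediateField.finiteDimensional_iSup_of_finite
  have hK₁ : ∀ k x, χ k x ∈ K₁ := fun k x => (le_iSup K k) (hK k x)
  haveI : Finite (ResidueField ℤ_[p]) := Finite.of_equiv _ (PadicInt.residueField (p := p)).symm.toEquiv
  obtain ⟨hdom, hdvr, hcompl, hfin, hchar, hmf, hloc, hinj⟩ :=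
    exists_dvr_structure ℤ_[p] ℚ_[p] K₁
  have hint : ∀ x : B, IsIntegral ℤ x := fun x => Algebra.IsIntegral.isIntegral x
  let χ₁ : κ → B →+* K₁ := fun k => (χ k).codRestrict K₁.toSubring (hK₁ k)
  have hχ₁int : ∀ k (x : B), IsIntegral ℤ_[p] (χ₁ k x) := fun k x =>
    (map_isIntegral_int (χ₁ k) (hint x)).tower_top
  let θ : κ → B →+* OL ℤ_[p] K₁ := fun k => (χ₁ k).codRestrict (OL ℤ_[p] K₁).toSubring (hχ₁int k)
  have hpO : (p : OL ℤ_[p] K₁) ∈ maximalIdeal (OL ℤ_[p] K₁) := by
    rw [mem_maximalIdeal, mem_nonunits_iff]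
    intro hu
    have h1 : (p : OL ℤ_[p] K₁) = algebraMap ℤ_[p] (OL ℤ_[p] K₁) (p : ℤ_[p]) := by
      rw [map_natCast]
    rw [h1] at hu
    exact PadicInt.p_nonunit (isUnit_of_map_unit _ _ hu)
  -- the determinant over `O`
  let j : OL ℤ_[p] K₁ →+* Ω := (K₁.val : K₁ →+* Ω).comp (OL ℤ_[p] K₁).val.toRingHom
  have hj : Function.Injective j := fun x y h => Subtype.ext (Subtype.ext h)
  have hdet' : (Matrix.of fun i k => θ i (b k)).det ≠ 0 := by
    intro h0
    apply hdet
    have := congrArg j h0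
    rw [RingHom.map_det, map_zero] at this
    rw [← this]
    rfl
  haveI := hchar
  obtain ⟨c, hc⟩ := lattice_of_det_ne_zero b hp.out hpO θ hdet'
  exact ⟨κ, inferInstance, OL ℤ_[p] K₁, inferInstance, hdom, hdvr, hcompl, hfin, hchar, θ, hpO,
    c, hc⟩

end Fermat.Agent.S31lib.LAT
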