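/-
S31lib / block LAT (helper5).  **The lattice family of points of a reduced anemic Hecke algebra**
(the statement `ASM.BrickLATRed` of block ASM, verbatim).
-/
import Mathlib
import Fermat.Agent.S22
import Fermat.Agent.S31lib.LAT.Lattice

set_option autoImplicit false
set_option linter.style.haveILetI false

noncomputable section

namespace Fermat.Agent.S31lib.LAT

/-- **block LAT**: for a reduced anemic Hecke algebra `𝕋 = 𝕋^S` of level `Γ₀(N)`, weight 2, and a
prime `p` there are finitely many points `χ_i : 𝕋 → O_i` into complete DVRs of characteristic `0`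
with finite residue field of characteristic `p`, and `c`, such that
`χ_i r ∈ p^m O_i` for all `i` implies `r ∈ p^(m-c) 𝕋`. -/
theorem brickLAT_of_isReduced (N : ℕ) [NeZero N] (S : Finset ℕ)
    (hred : IsReduced (CuspForm.heckeAlgebra N 2 (↑S : Set ℕ))) (p : ℕ) (hp : p.Prime) :
    ∃ (ι : Type) (_ : Finite ι) (O : ι → Type) (_ : ∀ i, CommRing (O i))
      (_ : ∀ i, IsDomain (O i)) (_ : ∀ i, IsDiscreteValuationRing (O i))
      (_ : ∀ i, IsAdicComplete (IsLocalRing.maximalIdeal (O i)) (O i))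
      (_ : ∀ i, Finite (IsLocalRing.ResidueField (O i))) (_ : ∀ i, CharZero (O i))
      (χ : ∀ i, CuspForm.heckeAlgebra N 2 (↑S : Set ℕ) →+* O i),
      (∀ i, (p : O i) ∈ IsLocalRing.maximalIdeal (O i)) ∧
      ∃ c : ℕ, ∀ (r : CuspForm.heckeAlgebra N 2 (↑S : Set ℕ)) (m : ℕ),
        (∀ i, χ i r ∈ Ideal.span {(p : O i) ^ m}) →
          r ∈ Ideal.span {(p : CuspForm.heckeAlgebra N 2 (↑S : Set ℕ)) ^ (m - c)} := by
  haveI : Fact p.Prime := ⟨hp⟩
  haveI : Module.Finite ℤ (CuspForm.heckeAlgebra N 2 (↑S : Set ℕ)) :=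
    Fermat.Agent.S22.result N 2 (↑S : Set ℕ)
  haveI : Module.Free ℤ (CuspForm.heckeAlgebra N 2 (↑S : Set ℕ)) := inferInstance
  obtain ⟨ι, hι, O, i1, i2, i3, i4, i5, i6, χ, hpO, hlat⟩ :=
    exists_lattice_family (CuspForm.heckeAlgebra N 2 (↑S : Set ℕ)) p
  exact ⟨ι, hι, fun _ => O, fun _ => i1, fun _ => i2, fun _ => i3, fun _ => i4, fun _ => i5,
    fun _ => i6, χ, fun _ => hpO, hlat⟩

end Fermat.Agent.S31lib.LAT
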